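import Mathlib

/-!
# S16 / WP U4 (helper109): the purely algebraic identities

* `two_pow_dvd_pow_sub_pow` : `2 ∣ x - y → 2 ^ (k + 1) ∣ x ^ 2 ^ k - y ^ 2 ^ k`.
* `exists_mu_K` : the integrality of `μ = (G² - s² X₄)/16`, `K = (G X₄ - s X₆)/8` and the
  congruence `G μ ≡ K mod 2`, for `G = s + 8 g`, `s = 2 t + 1`, `X₄ = c₄ (1 + 240 e)`,
  `X₆ = c₆ (1 - 504 (e - 2 f))`, `c₄ = 1 + 32 a`, `c₆ = 1 + 16 b`.
-/

set_option autoImplicit false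

namespace Fermat.Agent.S16.H109

theorem two_pow_dvd_pow_sub_pow {R : Type*} [CommRing R] {x y : R} (h : (2 : R) ∣ x - y)
    (k : ℕ) : (2 : R) ^ (k + 1) ∣ x ^ 2 ^ k - y ^ 2 ^ k := by
  induction k with
  | zero => simpa using h
  | succ k ih =>
    have h1 : x ^ 2 ^ (k + 1) - y ^ 2 ^ (k + 1) =
        (x ^ 2 ^ k - y ^ 2 ^ k) * (x ^ 2 ^ k + y ^ 2 ^ k) := by
      rw [pow_succ 2 k, pow_mul, pow_mul]
      ring
    have h2 : (2 : R) ∣ x ^ 2 ^ k + y ^ 2 ^ k := by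
      have h3 : (2 : R) ∣ x ^ 2 ^ k - y ^ 2 ^ k :=
        Dvd.dvd.trans (dvd_pow_self (2 : R) (Nat.succ_ne_zero k)) ih
      have h4 : x ^ 2 ^ k + y ^ 2 ^ k = (x ^ 2 ^ k - y ^ 2 ^ k) + 2 * y ^ 2 ^ k := by ring
      rw [h4]
      exact dvd_add h3 (dvd_mul_right _ _)
    rw [h1, pow_succ (2 : R) (k + 1)]
    exact mul_dvd_mul ih h2

/-- Integrality of `μ`, `K` and the congruence `G μ ≡ K mod 2`. -/
theorem exists_mu_K {R : Type*} [CommRing R] (t a b : ℤ) (g e f : R) :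
    ∃ mu K W : R,
      16 * mu = ((2 * t + 1 : ℤ) + 8 * g) ^ 2 -
        ((2 * t + 1 : ℤ) : R) ^ 2 * (((1 + 32 * a : ℤ) : R) * (1 + 240 * e)) ∧
      8 * K = ((2 * t + 1 : ℤ) + 8 * g) * (((1 + 32 * a : ℤ) : R) * (1 + 240 * e)) -
        ((2 * t + 1 : ℤ) : R) * (((1 + 16 * b : ℤ) : R) * (1 - 504 * (e - 2 * f))) ∧
      ((2 * t + 1 : ℤ) + 8 * g) * mu - K = 2 * W := by
  refine ⟨-2 * a * (2 * t + 1) ^ 2 + (2 * t + 1) * g + 4 * g ^ 2 -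
      15 * (2 * t + 1) ^ 2 * (1 + 32 * a) * e,
    (2 * t + 1) * (4 * a - 2 * b) + 30 * (2 * t + 1) * (1 + 32 * a) * e + g * (1 + 32 * a) +
      240 * g * (1 + 32 * a) * e + 63 * (2 * t + 1) * (1 + 16 * b) * (e - 2 * f),
    63 * f - 54 * e - 180 * g * e + 6 * g^2 + 16 * g^3 + b + 1008 * b * f - 504 * b * e - 3 * a - 720 * a * e - 24 * a * g - 5760 * a * g * e + 126 * t * f - 138 * t * e + 2 * t * g - 240 * t * g * e + 12 * t * g^2 + 2 * t * b + 2016 * t * b * f - 1008 * t * b * e - 10 * t * a - 2400 * t * a * e - 32 * t * a * g - 7680 * t * a * g * e - 90 * t^2 * e + 2 * t^2 * g - 240 * t^2 * g * e - 12 * t^2 * a - 2880 * t^2 * a * e - 32 * t^2 * a * g - 7680 * t^2 * a * g * e - 60 * t^3 * e - 8 * t^3 * a - 1920 * t^3 * a * e,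
    ?_, ?_, ?_⟩
  · push_cast
    ring
  · push_cast
    ring
  · push_cast
    ring

/-- Modulo `E`: `(G μ)^(2j) ≡ 16^j μ^(3j)` when `16 μ = G² - c E`. -/
theorem dvd_A_sub {R : Type*} [CommRing R] (E G μ c : R) (h : 16 * μ = G ^ 2 - c * E) (j : ℕ) :
    E ∣ (G * μ) ^ (2 * j) - 16 ^ j * μ ^ (3 * j) := by
  have h1 : (G * μ) ^ (2 * j) - 16 ^ j * μ ^ (3 * j) =
      μ ^ (2 * j) * ((G ^ 2) ^ j - (16 * μ) ^ j) := by
    rw [mul_pow, mul_pow, pow_mul G 2 j, show 3 * j = 2 * j + j by ring, pow_add]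
    ring
  have h2 : E ∣ G ^ 2 - 16 * μ := ⟨c, by rw [h]; ring⟩
  rw [h1]
  exact Dvd.dvd.mul_left (h2.trans (sub_dvd_pow_sub_pow _ _ j)) _

/-- Modulo `E`: `(8 K)^(2j) ≡ (c E₆)^(2j)` when `8 K = G E - c E₆`. -/
theorem dvd_K_sub {R : Type*} [CommRing R] (E G K c E6 : R) (h : 8 * K = G * E - c * E6)
    (j : ℕ) : E ∣ 8 ^ (2 * j) * K ^ (2 * j) - c ^ (2 * j) * E6 ^ (2 * j) := by
  have h1 : 8 ^ (2 * j) * K ^ (2 * j) - c ^ (2 * j) * E6 ^ (2 * j) =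
      (8 * K) ^ (2 * j) - (-(c * E6)) ^ (2 * j) := by
    rw [Even.neg_pow ⟨j, by ring⟩, mul_pow, mul_pow]
  have h2 : E ∣ 8 * K - -(c * E6) := ⟨G, by rw [h]; ring⟩
  rw [h1]
  exact h2.trans (sub_dvd_pow_sub_pow _ _ _)

/-- The final arithmetic step. -/
theorem two_pow_dvd_of_identity (i : ℕ) (m n s P : ℤ) (hs : Odd s) (hP : Odd P)
    (h : (64 : ℤ) ^ 2 ^ i * 2 ^ (i + 2) * m =
      64 ^ 2 ^ i * 16 ^ 2 ^ i * n -
        P ^ (12 * 2 ^ i - 1) * s ^ (2 * 2 ^ i) * (P + 1) * (-1728) ^ 2 ^ i) :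
    (2 : ℤ) ^ (i + 2) ∣ P + 1 := by
  set j := 2 ^ i with hj
  have h1728 : (-1728 : ℤ) ^ j = 64 ^ j * (-27) ^ j := by
    rw [← mul_pow]
    norm_num
  rw [h1728] at h
  have h64 : (64 : ℤ) ^ j ≠ 0 := by positivity
  have h' : (2 : ℤ) ^ (i + 2) * m =
      16 ^ j * n - P ^ (12 * j - 1) * s ^ (2 * j) * (P + 1) * (-27) ^ j := by
    apply mul_left_cancel₀ h64
    linear_combination h
  have hle : i + 2 ≤ 4 * j := by
    have : i < 2 ^ i := Nat.lt_two_pow_self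
    have : 1 ≤ 2 ^ i := Nat.one_le_two_pow
    omega
  have h16 : (2 : ℤ) ^ (i + 2) ∣ 16 ^ j := by
    have : (16 : ℤ) ^ j = 2 ^ (4 * j) := by
      rw [pow_mul]
      norm_num
    rw [this]
    exact pow_dvd_pow _ hle
  have hdvd : (2 : ℤ) ^ (i + 2) ∣ (P ^ (12 * j - 1) * s ^ (2 * j) * (-27) ^ j) * (P + 1) := by
    have : (P ^ (12 * j - 1) * s ^ (2 * j) * (-27) ^ j) * (P + 1) =
        16 ^ j * n - 2 ^ (i + 2) * m := by
      linear_combination h'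
    rw [this]
    exact dvd_sub (h16.mul_right _) (dvd_mul_right _ _)
  have hodd : Odd (P ^ (12 * j - 1) * s ^ (2 * j) * (-27) ^ j) := by
    refine ((hP.pow).mul (hs.pow)).mul (Odd.pow ?_)
    exact ⟨-14, by norm_num⟩
  have hcop : IsCoprime ((2 : ℤ) ^ (i + 2)) (P ^ (12 * j - 1) * s ^ (2 * j) * (-27) ^ j) := by
    apply IsCoprime.pow_left
    rw [Int.isCoprime_iff_gcd_eq_one]
    obtain ⟨c, hc⟩ := hodd
    rw [hc]
    simp
  exact hcop.dvd_of_dvd_mul_left hdvd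

end Fermat.Agent.S16.H109
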