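import Mathlib
import Fermat.Agent.S16.Defs

/-!
# S16 / WP FR (helper109): algebraic properties of the Fricke hat `F ↦ F^`

Exact skeleton shapes of `hat_add`, `hat_smul`, `hat_mul`, `hat_pow` (plus `hat_sub`, `hat_neg`,
`hat_one`), and linearity of `tr`.
-/

set_option autoImplicit false

noncomputable section

namespace Fermat.Agent.S16.H109

open UpperHalfPlane ModularForm CongruenceSubgroup MatrixGroups ModularFormClass
open Fermat.Agent.S20 (MF SF)
open scoped Manifold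

variable (p : ℕ) [Fact p.Prime]

lemma p_ne_zero : p ≠ 0 := (Fact.out : p.Prime).ne_zero

lemma p_ne_zero' : (p : ℂ) ≠ 0 := by exact_mod_cast p_ne_zero p

lemma val_frickeGL :
    ((frickeGL p : GL (Fin 2) ℝ) : Matrix (Fin 2) (Fin 2) ℝ) = !![0, -1; (p : ℝ), 0] := by
  simp [frickeGL, p_ne_zero p]

lemma det_frickeGL : ((frickeGL p).det : ℝ) = p := by
  rw [Matrix.GeneralLinearGroup.val_det_apply, val_frickeGL, Matrix.det_fin_two_of]
  ring

lemma det_frickeGL_pos : 0 < ((frickeGL p).det : ℝ) := by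
  rw [det_frickeGL]
  exact_mod_cast (Fact.out : p.Prime).pos

lemma σ_frickeGL : UpperHalfPlane.σ (frickeGL p) = .refl ℝ ℂ := by
  rw [UpperHalfPlane.σ, if_pos (det_frickeGL_pos p)]

theorem hat_add (k : ℤ) (F G : ℍ → ℂ) : hat p k (F + G) = hat p k F + hat p k G := by
  simp only [hat, SlashAction.add_slash, smul_add]

theorem hat_smul (k : ℤ) (c : ℂ) (F : ℍ → ℂ) : hat p k (c • F) = c • hat p k F := by
  simp only [hat, ModularForm.smul_slash, σ_frickeGL, ContinuousAlgEquiv.refl_apply]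
  rw [smul_comm]

theorem hat_neg (k : ℤ) (F : ℍ → ℂ) : hat p k (-F) = -hat p k F := by
  simp only [hat, SlashAction.neg_slash, smul_neg]

theorem hat_sub (k : ℤ) (F G : ℍ → ℂ) : hat p k (F - G) = hat p k F - hat p k G := by
  rw [sub_eq_add_neg, hat_add, hat_neg, ← sub_eq_add_neg]

theorem hat_mul (k₁ k₂ : ℤ) (F₁ F₂ : ℍ → ℂ) :
    hat p (k₁ + k₂) (F₁ * F₂) = hat p k₁ F₁ * hat p k₂ F₂ := by
  simp only [hat, ModularForm.mul_slash, det_frickeGL]
  funext z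
  simp only [Pi.smul_apply, Pi.mul_apply, smul_eq_mul, Complex.real_smul, abs_of_nonneg
    (Nat.cast_nonneg p : (0 : ℝ) ≤ p), Complex.ofReal_natCast]
  ring

theorem hat_one : hat p 0 (1 : ℍ → ℂ) = 1 := by
  funext z
  simp only [hat, Pi.smul_apply, smul_eq_mul, ModularForm.slash_apply, σ_frickeGL,
    det_frickeGL, Pi.one_apply, ContinuousAlgEquiv.refl_apply, abs_of_nonneg
    (Nat.cast_nonneg p : (0 : ℝ) ≤ p), Complex.ofReal_natCast]
  have := p_ne_zero' p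
  simp

theorem hat_pow (k : ℤ) (n : ℕ) (F : ℍ → ℂ) : hat p (n * k) (F ^ n) = hat p k F ^ n := by
  induction n with
  | zero => simpa using hat_one p
  | succ n ih =>
    rw [pow_succ, pow_succ, ← ih, ← hat_mul]
    congr 1
    push_cast
    ring

lemma denom_frickeGL (z : ℍ) : UpperHalfPlane.denom (frickeGL p) z = (p : ℂ) * z := by
  simp [UpperHalfPlane.denom, val_frickeGL]

theorem hat_apply (k : ℤ) (F : ℍ → ℂ) (z : ℍ) :
    hat p k F z = (z : ℂ) ^ (-k) * F (frickeGL p • z) := by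
  have hp' : (p : ℂ) ≠ 0 := p_ne_zero' p
  have hz : (z : ℂ) ≠ 0 := ne_zero z
  simp only [hat, Pi.smul_apply, smul_eq_mul, ModularForm.slash_apply, σ_frickeGL,
    det_frickeGL, denom_frickeGL, ContinuousAlgEquiv.refl_apply, abs_of_nonneg
    (Nat.cast_nonneg p : (0 : ℝ) ≤ p), Complex.ofReal_natCast]
  rw [mul_zpow, zpow_sub₀ hp', zpow_one, zpow_neg, zpow_neg]
  field_simp

theorem coe_fricke_smul (z : ℍ) : ((frickeGL p • z : ℍ) : ℂ) = -1 / ((p : ℂ) * z) := by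
  rw [UpperHalfPlane.coe_smul_of_det_pos (det_frickeGL_pos p)]
  simp [UpperHalfPlane.num, UpperHalfPlane.denom, val_frickeGL]

lemma fricke_smul_eq (z : ℍ) :
    frickeGL p • z = ModularGroup.S • (heckeDiagMatrix p • z) := by
  apply UpperHalfPlane.ext
  rw [coe_fricke_smul, UpperHalfPlane.modular_S_smul]
  simp only [coe_heckeDiagMatrix_smul (p_ne_zero p)]
  rw [neg_div, one_div, neg_inv]

theorem hat_levelOne {k : ℤ} {H : ℍ → ℂ} (hH : H ∈ MF ⊤ k) :
    hat p k H = ((p : ℂ) ^ k) • Vp p H := by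
  funext z
  have hp' : (p : ℂ) ≠ 0 := p_ne_zero' p
  have hz : (z : ℂ) ≠ 0 := ne_zero z
  have hS := congrFun (hH.2.1 ModularGroup.S (Subgroup.mem_top _)) (heckeDiagMatrix p • z)
  rw [ModularForm.SL_slash_apply, ModularGroup.denom_S,
    coe_heckeDiagMatrix_smul (p_ne_zero p)] at hS
  rw [hat_apply, fricke_smul_eq, Pi.smul_apply, smul_eq_mul, Vp, ← hS]
  rw [zpow_neg, zpow_neg, mul_zpow]
  field_simp

/-- `hat` commutes with multiplication by constant functions. -/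
theorem hat_const_mul {C : ℍ → ℂ} (hC : ∀ z w, C z = C w) (k : ℤ) (F : ℍ → ℂ) :
    hat p k (C * F) = C * hat p k F := by
  funext z
  simp only [hat_apply, Pi.mul_apply]
  rw [hC (frickeGL p • z) z]
  ring

theorem hat_natCast_mul (n : ℕ) (k : ℤ) (F : ℍ → ℂ) :
    hat p k ((n : ℍ → ℂ) * F) = (n : ℍ → ℂ) * hat p k F :=
  hat_const_mul p (fun _ _ => rfl) k F

theorem hat_intCast_mul (n : ℤ) (k : ℤ) (F : ℍ → ℂ) :
    hat p k ((n : ℍ → ℂ) * F) = (n : ℍ → ℂ) * hat p k F :=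
  hat_const_mul p (fun _ _ => rfl) k F

theorem hat_intCast_pow_mul (n : ℤ) (e : ℕ) (k : ℤ) (F : ℍ → ℂ) :
    hat p k ((n : ℍ → ℂ) ^ e * F) = (n : ℍ → ℂ) ^ e * hat p k F :=
  hat_const_mul p (fun _ _ => rfl) k F

lemma eq_smul_of_natCast_mul {n : ℕ} (hn : n ≠ 0) {X Y : ℍ → ℂ}
    (h : (n : ℍ → ℂ) * X = Y) : X = ((n : ℂ)⁻¹) • Y := by
  have hn' : (n : ℂ) ≠ 0 := by exact_mod_cast hn
  funext z
  have := congrFun h z
  simp only [Pi.mul_apply, Pi.natCast_apply, Pi.smul_apply, smul_eq_mul] at this ⊢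
  rw [← this]
  field_simp

lemma natCast_mul_cancel {n : ℕ} (hn : n ≠ 0) {X Y : ℍ → ℂ}
    (h : (n : ℍ → ℂ) * X = (n : ℍ → ℂ) * Y) : X = Y := by
  have hn' : (n : ℂ) ≠ 0 := by exact_mod_cast hn
  funext z
  have := congrFun h z
  simp only [Pi.mul_apply, Pi.natCast_apply] at this
  exact mul_left_cancel₀ hn' this

lemma mem_MF_of_natCast_mul {Γ : Subgroup SL(2, ℤ)} {k : ℤ} {n : ℕ} (hn : n ≠ 0)
    {X Y : ℍ → ℂ} (h : (n : ℍ → ℂ) * X = Y) (hY : Y ∈ MF Γ k) : X ∈ MF Γ k := by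
  rw [eq_smul_of_natCast_mul hn h]
  exact Submodule.smul_mem _ _ hY

lemma natCast_mul_mem_MF {Γ : Subgroup SL(2, ℤ)} {k : ℤ} (n : ℕ)
    {X : ℍ → ℂ} (hX : X ∈ MF Γ k) : (n : ℍ → ℂ) * X ∈ MF Γ k := by
  have : (n : ℍ → ℂ) * X = (n : ℂ) • X := by
    funext z
    simp
  rw [this]
  exact Submodule.smul_mem _ _ hX

lemma intCast_pow_mul_mem_MF {Γ : Subgroup SL(2, ℤ)} {k : ℤ} (n : ℤ) (e : ℕ)
    {X : ℍ → ℂ} (hX : X ∈ MF Γ k) : (n : ℍ → ℂ) ^ e * X ∈ MF Γ k := by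
  have : (n : ℍ → ℂ) ^ e * X = ((n : ℂ) ^ e) • X := by
    funext z
    simp
  rw [this]
  exact Submodule.smul_mem _ _ hX

lemma hat_eq_of_natCast_mul {n : ℕ} (hn : n ≠ 0) {k : ℤ} {X Y X' : ℍ → ℂ}
    (h : (n : ℍ → ℂ) * X = Y) (h' : (n : ℍ → ℂ) * X' = hat p k Y) : hat p k X = X' := by
  apply natCast_mul_cancel hn
  rw [← hat_natCast_mul, h, h']

theorem tr_add (k : ℤ) (F G : ℍ → ℂ) : tr p k (F + G) = tr p k F + tr p k G := by
  simp only [tr, hat_add, heckeU_add, smul_add]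
  abel

theorem tr_smul (k : ℤ) (c : ℂ) (F : ℍ → ℂ) : tr p k (c • F) = c • tr p k F := by
  simp only [tr, hat_smul, heckeU_smul, smul_add]
  rw [smul_comm]

theorem tr_sub (k : ℤ) (F G : ℍ → ℂ) : tr p k (F - G) = tr p k F - tr p k G := by
  have h : F - G = F + (-1 : ℂ) • G := by
    rw [neg_one_smul, sub_eq_add_neg]
  rw [h, tr_add, tr_smul, neg_one_smul, sub_eq_add_neg]

/-- `U_p` commutes with multiplication by constant functions. -/
theorem heckeU_const_mul {C : ℍ → ℂ} (hC : ∀ z w, C z = C w) (k : ℤ) (F : ℍ → ℂ) :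
    heckeU k p (C * F) = C * heckeU k p F := by
  funext z
  rw [Pi.mul_apply, heckeU_apply k (p_ne_zero p), heckeU_apply k (p_ne_zero p)]
  simp only [Pi.mul_apply]
  have h : ∀ j ∈ Finset.range p, C (heckeMatrix p j • z) * F (heckeMatrix p j • z) =
      C z * F (heckeMatrix p j • z) := fun j _ => by rw [hC (heckeMatrix p j • z) z]
  rw [Finset.sum_congr rfl h, ← Finset.mul_sum]
  ring

/-- `tr` commutes with multiplication by constant functions. -/
theorem tr_const_mul {C : ℍ → ℂ} (hC : ∀ z w, C z = C w) (k : ℤ) (F : ℍ → ℂ) :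
    tr p k (C * F) = C * tr p k F := by
  simp only [tr, hat_const_mul p hC, heckeU_const_mul p hC, mul_add]
  congr 1
  funext z
  simp only [Pi.smul_apply, Pi.mul_apply, smul_eq_mul]
  ring

theorem tr_natCast_mul (n : ℕ) (k : ℤ) (F : ℍ → ℂ) :
    tr p k ((n : ℍ → ℂ) * F) = (n : ℍ → ℂ) * tr p k F :=
  tr_const_mul p (fun _ _ => rfl) k F

theorem tr_intCast_pow_mul (n : ℤ) (e : ℕ) (k : ℤ) (F : ℍ → ℂ) :
    tr p k ((n : ℍ → ℂ) ^ e * F) = (n : ℍ → ℂ) ^ e * tr p k F :=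
  tr_const_mul p (fun _ _ => rfl) k F

end Fermat.Agent.S16.H109
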