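import Mathlib
import Fermat.Agent.S16.Defs
import Fermat.Agent.S22T.DeltaInt
import Fermat.Prelude.Thm_UpperHalfPlane_qCoeff_heckeU
import Fermat.Prelude.Thm_UpperHalfPlane_qCoeff_heckeT
import Fermat.Prelude.Thm_ModularForm_isBoundedAtImInfty_heckeU
import Fermat.Prelude.Thm_ModularForm_isBoundedAtImInfty_heckeT
import Fermat.Prelude.Thm_ModularForm_mdifferentiable_heckeU
import Fermat.Prelude.Thm_ModularForm_mdifferentiable_heckeT
import Fermat.Prelude.Thm_ModularForm_periodic_heckeU_comp_ofComplex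
import Fermat.Prelude.Thm_ModularForm_periodic_heckeT_comp_ofComplex

/-!
# S16 / WP U4 (helper109): the ring of functions with integral `q`-expansion

* `Good F`  : `F` is `1`-periodic, holomorphic and bounded at `i∞`.
* `IntG`    : the subring of `ℍ → ℂ` of `Good` functions whose `q`-expansion (period `1`) has
  integer coefficients.
* `IntG` is stable under `U_p` (`heckeU k p`) and `V_p` (`Vp p`), and under division by an
  integer dividing all coefficients.
-/

set_option autoImplicit false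

noncomputable section

namespace Fermat.Agent.S16.H109

open UpperHalfPlane ModularForm CongruenceSubgroup MatrixGroups ModularFormClass EisensteinSeries
open Fermat.Agent.S20 (MF SF)
open scoped Manifold

/-- `F` is `1`-periodic, holomorphic and bounded at `i∞`. -/
structure Good (F : ℍ → ℂ) : Prop where
  per : Function.Periodic (F ∘ ofComplex) 1
  hol : MDiff F
  bdd : IsBoundedAtImInfty F

namespace Good

variable {F G : ℍ → ℂ}

lemma analytic (h : Good F) : AnalyticAt ℂ (cuspFunction 1 F) 0 :=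
  analyticAt_cuspFunction_zero one_pos h.per h.hol h.bdd

lemma const (c : ℂ) : Good (fun _ => c) where
  per := fun _ => rfl
  hol := mdifferentiable_const
  bdd := Filter.const_boundedAtFilter _ c

lemma zero : Good (0 : ℍ → ℂ) := const 0

lemma one : Good (1 : ℍ → ℂ) := const 1

lemma add (hF : Good F) (hG : Good G) : Good (F + G) where
  per := hF.per.add hG.per
  hol := hF.hol.add hG.hol
  bdd := hF.bdd.add hG.bdd

lemma mul (hF : Good F) (hG : Good G) : Good (F * G) where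
  per := hF.per.mul hG.per
  hol := hF.hol.mul hG.hol
  bdd := hF.bdd.mul hG.bdd

lemma smul (c : ℂ) (hF : Good F) : Good (c • F) where
  per := fun x => by
    have := hF.per x
    simp only [Function.comp_apply, Pi.smul_apply] at this ⊢
    rw [this]
  hol := hF.hol.const_smul c
  bdd := hF.bdd.const_smul_left c

lemma neg (hF : Good F) : Good (-F) := by
  have := hF.smul (-1)
  simpa using this

lemma sub (hF : Good F) (hG : Good G) : Good (F - G) := by
  rw [sub_eq_add_neg]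
  exact hF.add hG.neg

lemma heckeU (hF : Good F) (k : ℤ) (p : ℕ) : Good (heckeU k p F) where
  per := ModularForm.periodic_heckeU_comp_ofComplex hF.per k p
  hol := ModularForm.mdifferentiable_heckeU hF.hol k p
  bdd := ModularForm.isBoundedAtImInfty_heckeU hF.bdd k p

lemma heckeT (hF : Good F) (k : ℤ) (p : ℕ) : Good (heckeT k p F) where
  per := ModularForm.periodic_heckeT_comp_ofComplex hF.per k p
  hol := ModularForm.mdifferentiable_heckeT hF.hol k p
  bdd := ModularForm.isBoundedAtImInfty_heckeT hF.bdd k p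

end Good

lemma Vp_eq_sub {p : ℕ} (hp : p ≠ 0) (F : ℍ → ℂ) : Vp p F = heckeT 1 p F - heckeU 1 p F := by
  funext z
  rw [Pi.sub_apply, heckeT_eq_heckeU_add, Pi.add_apply, add_sub_cancel_left,
    slash_heckeDiagMatrix_apply 1 hp]
  simp [Vp]

lemma Good.Vp {F : ℍ → ℂ} (hF : Good F) {p : ℕ} (hp : p ≠ 0) : Good (Vp p F) := by
  rw [Vp_eq_sub hp]
  exact (hF.heckeT 1 p).sub (hF.heckeU 1 p)

/-- The subring of `Good` functions with integral `q`-expansion. -/
def IntG : Subring (ℍ → ℂ) where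
  carrier := {F | Good F ∧ ∃ P : PowerSeries ℤ, qExpansion 1 F = P.map (Int.castRingHom ℂ)}
  mul_mem' := by
    rintro f g ⟨hf, P, hP⟩ ⟨hg, Q, hQ⟩
    exact ⟨hf.mul hg, P * Q, by rw [qExpansion_mul hf.analytic hg.analytic, hP, hQ, map_mul]⟩
  one_mem' := ⟨Good.one, 1, by rw [qExpansion_one, map_one]⟩
  add_mem' := by
    rintro f g ⟨hf, P, hP⟩ ⟨hg, Q, hQ⟩
    exact ⟨hf.add hg, P + Q, by rw [qExpansion_add hf.analytic hg.analytic, hP, hQ, map_add]⟩
  zero_mem' := ⟨Good.zero, 0, by rw [qExpansion_zero, map_zero]⟩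
  neg_mem' := by
    rintro f ⟨hf, P, hP⟩
    exact ⟨hf.neg, -P, by rw [qExpansion_neg hf.analytic, hP, map_neg]⟩

lemma mem_IntG_iff {F : ℍ → ℂ} :
    F ∈ IntG ↔ Good F ∧ ∃ P : PowerSeries ℤ, qExpansion 1 F = P.map (Int.castRingHom ℂ) :=
  Iff.rfl

lemma IntG.good {F : ℍ → ℂ} (hF : F ∈ IntG) : Good F := hF.1

lemma mem_IntG_of_coeff {F : ℍ → ℂ} (hF : Good F)
    (h : ∀ n : ℕ, ∃ m : ℤ, qCoeff F n = (m : ℂ)) : F ∈ IntG := by
  choose c hc using h
  refine ⟨hF, PowerSeries.mk c, ?_⟩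
  ext n
  rw [PowerSeries.coeff_map, PowerSeries.coeff_mk]
  exact hc n

lemma IntG.coeff {F : ℍ → ℂ} (hF : F ∈ IntG) (n : ℕ) : ∃ m : ℤ, qCoeff F n = (m : ℂ) := by
  obtain ⟨_, P, hP⟩ := hF
  refine ⟨P.coeff n, ?_⟩
  rw [qCoeff, hP, PowerSeries.coeff_map]
  rfl

lemma IntG.intAll {F : ℍ → ℂ} (hF : F ∈ IntG) : IntAll F := fun n => IntG.coeff hF n

lemma qCoeff_smul {F : ℍ → ℂ} (hF : Good F) (c : ℂ) (n : ℕ) :
    qCoeff (c • F) n = c * qCoeff F n := by
  rw [qCoeff, qExpansion_smul hF.analytic, qCoeff]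
  simp

lemma qCoeff_add {F G : ℍ → ℂ} (hF : Good F) (hG : Good G) (n : ℕ) :
    qCoeff (F + G) n = qCoeff F n + qCoeff G n := by
  rw [qCoeff, qExpansion_add hF.analytic hG.analytic, qCoeff, qCoeff, map_add]

lemma qCoeff_sub {F G : ℍ → ℂ} (hF : Good F) (hG : Good G) (n : ℕ) :
    qCoeff (F - G) n = qCoeff F n - qCoeff G n := by
  rw [qCoeff, qExpansion_sub hF.analytic hG.analytic, qCoeff, qCoeff, map_sub]

lemma qCoeff_const (c : ℂ) (n : ℕ) :
    qCoeff (fun _ : ℍ => c) n = if n = 0 then c else 0 := by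
  have h : (fun _ : ℍ => c) = c • (1 : ℍ → ℂ) := by
    funext z
    simp
  rw [h, qCoeff_smul Good.one, qCoeff, qExpansion_one, PowerSeries.coeff_one]
  split_ifs <;> simp

/-- Division by an integer dividing all coefficients. -/
lemma smul_inv_mem_IntG {F : ℍ → ℂ} (hF : Good F) {N : ℤ} (hN : N ≠ 0)
    (h : ∀ n : ℕ, ∃ m : ℤ, qCoeff F n = (N : ℂ) * (m : ℂ)) : ((N : ℂ)⁻¹ • F) ∈ IntG := by
  refine mem_IntG_of_coeff (hF.smul _) fun n => ?_
  obtain ⟨m, hm⟩ := h n
  refine ⟨m, ?_⟩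
  have hN' : (N : ℂ) ≠ 0 := by exact_mod_cast hN
  rw [qCoeff_smul hF, hm]
  field_simp

lemma heckeU_mem_IntG {F : ℍ → ℂ} (hF : F ∈ IntG) (k : ℤ) {p : ℕ} (hp : p ≠ 0) :
    heckeU k p F ∈ IntG := by
  refine mem_IntG_of_coeff ((IntG.good hF).heckeU k p) fun n => ?_
  rw [UpperHalfPlane.qCoeff_heckeU (IntG.good hF).per (IntG.good hF).hol (IntG.good hF).bdd k hp n, coeffHeckeU_apply]
  exact IntG.coeff hF _

lemma qCoeff_Vp {F : ℍ → ℂ} (hF : Good F) {p : ℕ} (hp : p ≠ 0) (n : ℕ) :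
    qCoeff (Vp p F) n = if p ∣ n then qCoeff F (n / p) else 0 := by
  rw [Vp_eq_sub hp, qCoeff_sub (hF.heckeT 1 p) (hF.heckeU 1 p),
    UpperHalfPlane.qCoeff_heckeU hF.per hF.hol hF.bdd 1 hp n,
    UpperHalfPlane.qCoeff_heckeT hF.per hF.hol hF.bdd 1 hp n, coeffHeckeU_apply,
    coeffHeckeT_apply]
  simp

lemma Vp_mem_IntG {F : ℍ → ℂ} (hF : F ∈ IntG) {p : ℕ} (hp : p ≠ 0) : Vp p F ∈ IntG := by
  refine mem_IntG_of_coeff ((IntG.good hF).Vp hp) fun n => ?_
  rw [qCoeff_Vp (IntG.good hF) hp]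
  split_ifs
  · exact IntG.coeff hF _
  · exact ⟨0, by simp⟩

end Fermat.Agent.S16.H109
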