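import Mathlib
import Fermat.Agent.S16.H109.IntG
import Fermat.Prelude.Thm_CongruenceSubgroup_one_mem_strictPeriods_Gamma0

/-!
# S16 / WP U4 (helper109): basic facts on function-level modular forms

* `good_of_mem_MF` : elements of `MF (Gamma0 N) k` are `Good` (periodic, holomorphic, bounded).
* `MF` is a graded ring: `mul_mem_MF`, `pow_mem_MF`, `MF_top_le`.
* `E₄`, `E₆` are level one forms with integral `q`-expansions; the auxiliary series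
  `e4 = (E₄ - 1)/240`, `e6 = (1 - E₆)/504`, `e' = (e4 - e6)/2` are integral.
-/

set_option autoImplicit false

noncomputable section

namespace Fermat.Agent.S16.H109

open UpperHalfPlane ModularForm CongruenceSubgroup MatrixGroups ModularFormClass EisensteinSeries
open Fermat.Agent.S20 (MF SF)
open scoped Manifold ArithmeticFunction.sigma

/-- The slash invariant form attached to an element of `MF Γ k`. -/
def sifOfMF {Γ : Subgroup SL(2, ℤ)} {k : ℤ} {f : ℍ → ℂ} (hf : f ∈ MF Γ k) :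
    SlashInvariantForm (Γ : Subgroup (GL (Fin 2) ℝ)) k where
  toFun := f
  slash_action_eq' γ hγ := by
    obtain ⟨γ', hγ', rfl⟩ := hγ
    exact hf.2.1 γ' hγ'

lemma good_of_mem_MF {N : ℕ} {k : ℤ} {F : ℍ → ℂ} (hF : F ∈ MF (Gamma0 N) k) : Good F where
  per := SlashInvariantFormClass.periodic_comp_ofComplex (sifOfMF hF)
    (CongruenceSubgroup.one_mem_strictPeriods_Gamma0 N)
  hol := hF.1
  bdd := by
    have := hF.2.2 1
    rwa [SlashAction.slash_one] at this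

lemma MF_mono {Γ Γ' : Subgroup SL(2, ℤ)} (h : Γ' ≤ Γ) (k : ℤ) : MF Γ k ≤ MF Γ' k :=
  fun _ hf => ⟨hf.1, fun γ hγ => hf.2.1 γ (h hγ), hf.2.2⟩

lemma MF_top_le (Γ : Subgroup SL(2, ℤ)) (k : ℤ) : MF ⊤ k ≤ MF Γ k := MF_mono le_top k

lemma good_of_mem_MF_top {k : ℤ} {F : ℍ → ℂ} (hF : F ∈ MF ⊤ k) : Good F :=
  good_of_mem_MF (N := 1) (MF_top_le _ k hF)

lemma mem_MF_of_eq {Γ : Subgroup SL(2, ℤ)} {a b : ℤ} (h : a = b) {F : ℍ → ℂ}
    (hF : F ∈ MF Γ a) : F ∈ MF Γ b := h ▸ hF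

lemma mul_mem_MF {Γ : Subgroup SL(2, ℤ)} {a b : ℤ} {F G : ℍ → ℂ} (hF : F ∈ MF Γ a)
    (hG : G ∈ MF Γ b) : F * G ∈ MF Γ (a + b) := by
  refine ⟨hF.1.mul hG.1, fun γ hγ => ?_, fun γ => ?_⟩
  · rw [mul_slash_SL2, hF.2.1 γ hγ, hG.2.1 γ hγ]
  · rw [mul_slash_SL2]
    exact (hF.2.2 γ).mul (hG.2.2 γ)

lemma one_mem_MF (Γ : Subgroup SL(2, ℤ)) : (1 : ℍ → ℂ) ∈ MF Γ 0 := by
  refine ⟨mdifferentiable_const, fun γ _ => ?_, fun γ => ?_⟩
  · exact ModularForm.is_invariant_one γ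
  · rw [ModularForm.is_invariant_one γ]
    exact Filter.const_boundedAtFilter _ (1 : ℂ)

lemma pow_mem_MF {Γ : Subgroup SL(2, ℤ)} {k : ℤ} {F : ℍ → ℂ} (hF : F ∈ MF Γ k) (n : ℕ) :
    F ^ n ∈ MF Γ (n * k) := by
  induction n with
  | zero => simpa using one_mem_MF Γ
  | succ n ih =>
    rw [pow_succ]
    refine mem_MF_of_eq ?_ (mul_mem_MF ih hF)
    push_cast
    ring

lemma coe_mem_MF_top {k : ℤ} (f : ModularForm 𝒮ℒ k) : (⇑f : ℍ → ℂ) ∈ MF ⊤ k := by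
  refine ⟨ModularFormClass.holo f, fun γ _ => ?_, fun γ => ModularFormClass.bdd_at_infty_slash f γ⟩
  rw [SL_slash]
  exact SlashInvariantFormClass.slash_action_eq f _ ⟨γ, rfl⟩

lemma E4_mem_MF : (E₄ : ℍ → ℂ) ∈ MF ⊤ 4 := coe_mem_MF_top E₄

lemma E6_mem_MF : (E₆ : ℍ → ℂ) ∈ MF ⊤ 6 := coe_mem_MF_top E₆

lemma good_E4 : Good (E₄ : ℍ → ℂ) := good_of_mem_MF_top E4_mem_MF

lemma good_E6 : Good (E₆ : ℍ → ℂ) := good_of_mem_MF_top E6_mem_MF

lemma qCoeff_E4 (n : ℕ) :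
    qCoeff (E₄ : ℍ → ℂ) n = (((1 + 240 * Fermat.Agent.S22T.sigmaSeries 3 : PowerSeries ℤ).coeff n : ℤ) : ℂ) := by
  rw [qCoeff, Fermat.Agent.S22T.qExpansion_E4, PowerSeries.coeff_map]
  rfl

lemma qCoeff_E6 (n : ℕ) :
    qCoeff (E₆ : ℍ → ℂ) n = (((1 - 504 * Fermat.Agent.S22T.sigmaSeries 5 : PowerSeries ℤ).coeff n : ℤ) : ℂ) := by
  rw [qCoeff, Fermat.Agent.S22T.qExpansion_E6, PowerSeries.coeff_map]
  rfl

lemma E4_mem_IntG : (E₄ : ℍ → ℂ) ∈ IntG :=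
  mem_IntG_of_coeff good_E4 fun n => ⟨_, qCoeff_E4 n⟩

lemma E6_mem_IntG : (E₆ : ℍ → ℂ) ∈ IntG :=
  mem_IntG_of_coeff good_E6 fun n => ⟨_, qCoeff_E6 n⟩

/-- `σ_k(n)` for `n ≥ 1`, and `0` for `n = 0`. -/
def sig (k n : ℕ) : ℤ := if n = 0 then 0 else (σ k n : ℤ)

lemma coeff_sigmaSeries (k n : ℕ) : (Fermat.Agent.S22T.sigmaSeries k).coeff n = sig k n := by
  simp [Fermat.Agent.S22T.sigmaSeries, sig]

lemma coeff_one_add (n : ℕ) :
    (1 + 240 * Fermat.Agent.S22T.sigmaSeries 3 : PowerSeries ℤ).coeff n =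
      (if n = 0 then 1 else 0) + 240 * sig 3 n := by
  have h240 : (240 : PowerSeries ℤ) = PowerSeries.C (240 : ℤ) := by rw [map_ofNat]
  rw [map_add, h240, PowerSeries.coeff_C_mul, coeff_sigmaSeries, PowerSeries.coeff_one]

lemma coeff_one_sub (n : ℕ) :
    (1 - 504 * Fermat.Agent.S22T.sigmaSeries 5 : PowerSeries ℤ).coeff n =
      (if n = 0 then 1 else 0) - 504 * sig 5 n := by
  have h504 : (504 : PowerSeries ℤ) = PowerSeries.C (504 : ℤ) := by rw [map_ofNat]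
  rw [map_sub, h504, PowerSeries.coeff_C_mul, coeff_sigmaSeries, PowerSeries.coeff_one]

/-- `e4 = (E₄ - 1)/240 = ∑ σ₃(n) qⁿ`. -/
def e4 : ℍ → ℂ := (240 : ℂ)⁻¹ • ((E₄ : ℍ → ℂ) - 1)

/-- `e6 = (1 - E₆)/504 = ∑ σ₅(n) qⁿ`. -/
def e6 : ℍ → ℂ := (504 : ℂ)⁻¹ • (1 - (E₆ : ℍ → ℂ))

/-- `e' = (e4 - e6)/2`. -/
def e' : ℍ → ℂ := (2 : ℂ)⁻¹ • (e4 - e6)

lemma qCoeff_one (n : ℕ) : qCoeff (1 : ℍ → ℂ) n = if n = 0 then 1 else 0 := by
  rw [qCoeff, qExpansion_one, PowerSeries.coeff_one]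

lemma good_e4 : Good e4 := (good_E4.sub Good.one).smul _

lemma good_e6 : Good e6 := (Good.one.sub good_E6).smul _

lemma qCoeff_e4 (n : ℕ) : qCoeff e4 n = (sig 3 n : ℂ) := by
  rw [e4, qCoeff_smul (good_E4.sub Good.one), qCoeff_sub good_E4 Good.one, qCoeff_E4, qCoeff_one,
    coeff_one_add]
  split_ifs <;> push_cast <;> ring

lemma qCoeff_e6 (n : ℕ) : qCoeff e6 n = (sig 5 n : ℂ) := by
  rw [e6, qCoeff_smul (Good.one.sub good_E6), qCoeff_sub Good.one good_E6, qCoeff_E6, qCoeff_one,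
    coeff_one_sub]
  split_ifs <;> push_cast <;> ring

lemma e4_mem_IntG : e4 ∈ IntG := mem_IntG_of_coeff good_e4 fun n => ⟨_, qCoeff_e4 n⟩

lemma e6_mem_IntG : e6 ∈ IntG := mem_IntG_of_coeff good_e6 fun n => ⟨_, qCoeff_e6 n⟩

lemma two_dvd_pow_sub (d : ℕ) : (2 : ℤ) ∣ (d : ℤ) ^ 3 - (d : ℤ) ^ 5 := by
  have h : ∀ x : ZMod 2, x ^ 3 - x ^ 5 = 0 := by decide
  have h3 : (((d : ℤ) ^ 3 - (d : ℤ) ^ 5 : ℤ) : ZMod 2) = 0 := by
    push_cast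
    exact h _
  exact (ZMod.intCast_zmod_eq_zero_iff_dvd _ 2).mp h3

lemma two_dvd_sig (n : ℕ) : (2 : ℤ) ∣ sig 3 n - sig 5 n := by
  unfold sig
  split_ifs
  · simp
  · rw [ArithmeticFunction.sigma_apply, ArithmeticFunction.sigma_apply]
    push_cast
    rw [← Finset.sum_sub_distrib]
    exact Finset.dvd_sum fun d _ => two_dvd_pow_sub d

lemma e'_mem_IntG : e' ∈ IntG := by
  have h := smul_inv_mem_IntG (F := e4 - e6) (good_e4.sub good_e6) (N := 2) (by norm_num)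
    (fun n => by
      obtain ⟨m, hm⟩ := two_dvd_sig n
      refine ⟨m, ?_⟩
      rw [qCoeff_sub good_e4 good_e6, qCoeff_e4, qCoeff_e6]
      have : ((sig 3 n - sig 5 n : ℤ) : ℂ) = ((2 * m : ℤ) : ℂ) := by rw [hm]
      push_cast at this
      exact this)
  simpa [e'] using h

lemma E4_eq : (E₄ : ℍ → ℂ) = 1 + 240 * e4 := by
  funext z
  simp only [e4, Pi.add_apply, Pi.mul_apply, Pi.smul_apply, Pi.sub_apply, Pi.one_apply,
    smul_eq_mul, Pi.ofNat_apply]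
  ring

lemma E6_eq : (E₆ : ℍ → ℂ) = 1 - 504 * (e4 - 2 * e') := by
  funext z
  simp only [e4, e6, e', Pi.add_apply, Pi.mul_apply, Pi.smul_apply, Pi.sub_apply, Pi.one_apply,
    smul_eq_mul, Pi.ofNat_apply]
  ring

end Fermat.Agent.S16.H109
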