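import Mathlib
import Fermat.Agent.S16.H109.IntG
import Fermat.Agent.S16.H109.MFBasic
import Fermat.Agent.S16.H109.Alg
import Fermat.Agent.S16.H109.Hat

/-!
# S16 / WP U4 (helper109): the case `p ≡ 7 mod 8`

No `G ∈ M₂(Γ₀(p))`, `p ≡ 7 mod 8`, has integral `q`-expansion congruent to an odd constant
modulo `8`.  The inputs from the work packages FR (Fricke involution, trace) and L1 (level one
facts) are taken as hypotheses, in the exact shapes of the skeleton (`U4Inputs`).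
-/

set_option autoImplicit false

noncomputable section

namespace Fermat.Agent.S16.H109

open UpperHalfPlane ModularForm CongruenceSubgroup MatrixGroups ModularFormClass EisensteinSeries
open Fermat.Agent.S20 (MF SF)
open scoped Manifold

local notation "Δ" => ModularForm.discriminant

/-- The inputs from WP FR and WP L1 used in the proof of U4 (exact skeleton shapes). -/
structure U4Inputs (p : ℕ) : Prop where
  hat_two : ∀ {G : ℍ → ℂ}, G ∈ MF (Gamma0 p) 2 → hat p 2 G = (-(p : ℂ)) • heckeU 2 p G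
  tr_mem_MF : ∀ {k : ℤ} {F : ℍ → ℂ}, F ∈ MF (Gamma0 p) k → tr p k F ∈ MF ⊤ k
  tr_mul_levelOne : ∀ {a : ℤ} (k : ℤ) {H : ℍ → ℂ}, H ∈ MF ⊤ a → ∀ F : ℍ → ℂ,
    tr p (a + k) (H * F) = H * tr p k F
  tr_levelOne : ∀ {k : ℤ} {H : ℍ → ℂ}, H ∈ MF ⊤ k → tr p k H = ((p : ℂ) + 1) • H
  evRho_int : ∀ (ρ : ℍ), (E₄ : ℍ → ℂ) ρ = 0 → ∀ (j : ℕ) {H : ℍ → ℂ},
    H ∈ MF (⊤ : Subgroup SL(2, ℤ)) (12 * j) → IntAll H →
    ∃ m : ℤ, H ρ = (m : ℂ) * (Δ : ℍ → ℂ) ρ ^ j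
  exists_rho : ∃ ρ : ℍ, (E₄ : ℍ → ℂ) ρ = 0

/-! ## Arithmetic of `p ≡ 7 mod 8` -/

lemma exists_arith {p : ℕ} (hp8 : p % 8 = 7) :
    ∃ r a b : ℤ, (p : ℤ) + 1 = 8 * r ∧ (p : ℤ) ^ 4 = 1 + 32 * a ∧ (p : ℤ) ^ 6 = 1 + 16 * b := by
  have h : (p : ℤ) = 8 * (p / 8 : ℕ) + 7 := by
    have := Nat.div_add_mod p 8
    omega
  set q : ℤ := ((p / 8 : ℕ) : ℤ)
  refine ⟨q + 1, 128 * q ^ 4 + 448 * q ^ 3 + 588 * q ^ 2 + 343 * q + 75,
    16384 * q ^ 6 + 86016 * q ^ 5 + 188160 * q ^ 4 + 219520 * q ^ 3 + 144060 * q ^ 2 +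
      50421 * q + 7353, ?_, ?_, ?_⟩
  · rw [h]; ring
  · rw [h]; ring
  · rw [h]; ring

/-! ## Writing `F = s + 8 g` -/

lemma exists_g_of_cong {F : ℍ → ℂ} (hF : Good F) (s : ℤ) (h0 : qCoeff F 0 = (s : ℂ))
    (hcong : ∀ k : ℕ, 1 ≤ k → ∃ m : ℤ, qCoeff F k = 8 * (m : ℂ)) :
    ∃ g : IntG, F = (s : ℍ → ℂ) + 8 * (g : ℍ → ℂ) := by
  have hgood : Good (F - fun _ => (s : ℂ)) := hF.sub (Good.const _)
  have hmem := smul_inv_mem_IntG hgood (N := 8) (by norm_num) (fun n => by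
    rw [qCoeff_sub hF (Good.const _), qCoeff_const]
    rcases Nat.eq_zero_or_pos n with rfl | hn
    · exact ⟨0, by simp [h0]⟩
    · obtain ⟨m, hm⟩ := hcong n hn
      refine ⟨m, ?_⟩
      rw [hm, if_neg (by omega)]
      push_cast
      ring)
  refine ⟨⟨_, hmem⟩, ?_⟩
  funext z
  simp only [Pi.add_apply, Pi.mul_apply, Pi.smul_apply, Pi.sub_apply, smul_eq_mul,
    Pi.intCast_apply, Pi.ofNat_apply, Int.cast_ofNat]
  ring

/-! ## The forms `μ`, `K` and their Fricke images -/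

/-- `μ = (G² - s² E₄)/16`, `K = (G E₄ - s E₆)/8` and their images `μ'`, `K'` under the Fricke
involution are integral, and `G μ ≡ K`, `G^ μ' ≡ K'` modulo `2`. -/
structure IsMuData (p : ℕ) (G : ℍ → ℂ) (s : ℤ) (μ K μ' K' : ℍ → ℂ) : Prop where
  G_mem : G ∈ IntG
  Ghat_mem : hat p 2 G ∈ IntG
  μ_mem : μ ∈ IntG
  K_mem : K ∈ IntG
  μ'_mem : μ' ∈ IntG
  K'_mem : K' ∈ IntG
  hμ : 16 * μ = G ^ 2 - (s : ℍ → ℂ) ^ 2 * E₄
  hK : 8 * K = G * E₄ - (s : ℍ → ℂ) * E₆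
  hW : ∃ W ∈ IntG, G * μ - K = 2 * W
  hμ' : 16 * μ' = hat p 2 G ^ 2 - (s : ℍ → ℂ) ^ 2 * hat p 4 E₄
  hK' : 8 * K' = hat p 2 G * hat p 4 E₄ - (s : ℍ → ℂ) * hat p 6 E₆
  hW' : ∃ W ∈ IntG, hat p 2 G * μ' - K' = 2 * W

lemma Vp_E4 (p : ℕ) : Vp p (E₄ : ℍ → ℂ) = 1 + 240 * Vp p e4 := by
  funext z
  have h := congrFun E4_eq (heckeDiagMatrix p • z)
  simpa [Vp] using h

lemma Vp_E6 (p : ℕ) : Vp p (E₆ : ℍ → ℂ) = 1 - 504 * (Vp p e4 - 2 * Vp p e') := by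
  funext z
  have h := congrFun E6_eq (heckeDiagMatrix p • z)
  simpa [Vp] using h

section main

variable (p : ℕ) [Fact p.Prime]

lemma exists_muData (hin : U4Inputs p) (hp8 : p % 8 = 7) {G : ℍ → ℂ}
    (hG : G ∈ MF (Gamma0 p) 2) (s : ℤ) (hs : Odd s) (h0 : qCoeff G 0 = (s : ℂ))
    (hcong : ∀ k : ℕ, 1 ≤ k → ∃ m : ℤ, qCoeff G k = 8 * (m : ℂ)) :
    ∃ μ K μ' K' : ℍ → ℂ, IsMuData p G s μ K μ' K' := by
  have hp0 : p ≠ 0 := p_ne_zero p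
  obtain ⟨r, a, b, hr, ha, hb⟩ := exists_arith hp8
  obtain ⟨t, rfl⟩ := hs
  have hGgood : Good G := good_of_mem_MF hG
  obtain ⟨g, hg⟩ := exists_g_of_cong hGgood _ h0 hcong
  -- `U_p G`
  have hUgood : Good (heckeU 2 p G) := hGgood.heckeU 2 p
  have hUcoeff : ∀ n, qCoeff (heckeU 2 p G) n = qCoeff G (n * p) := fun n => by
    rw [UpperHalfPlane.qCoeff_heckeU hGgood.per hGgood.hol hGgood.bdd 2 hp0 n, coeffHeckeU_apply]
  obtain ⟨g₁, hg₁⟩ := exists_g_of_cong hUgood (2 * t + 1) (by rw [hUcoeff, zero_mul, h0])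
    (fun k hk => by
      rw [hUcoeff]
      exact hcong _ (Nat.mul_pos hk (Nat.pos_of_ne_zero hp0)))
  -- `G^ = s + 8 g''`
  set g'' : IntG := -(p : IntG) * g₁ - (r : IntG) * ((2 * t + 1 : ℤ) : IntG) with hg''def
  have hg'' : hat p 2 G = ((2 * t + 1 : ℤ) : ℍ → ℂ) + 8 * (g'' : ℍ → ℂ) := by
    rw [hin.hat_two hG, hg₁]
    have hr' : (p : ℂ) + 1 = 8 * (r : ℂ) := by exact_mod_cast hr
    have hval : (g'' : ℍ → ℂ) =
        -(p : ℍ → ℂ) * (g₁ : ℍ → ℂ) - (r : ℍ → ℂ) * ((2 * t + 1 : ℤ) : ℍ → ℂ) := by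
      have := congrArg IntG.subtype hg''def
      simpa only [map_mul, map_sub, map_neg, map_natCast, map_intCast, Subring.coe_subtype]
        using this
    rw [hval]
    funext z
    simp only [Pi.add_apply, Pi.mul_apply, Pi.smul_apply, smul_eq_mul,
      Pi.intCast_apply, Pi.ofNat_apply, Pi.sub_apply, Pi.neg_apply, Pi.natCast_apply]
    linear_combination (-((2 * t + 1 : ℤ) : ℂ)) * hr'
  -- hats of `E₄`, `E₆`
  have hE4hat : hat p 4 (E₄ : ℍ → ℂ) =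
      ((1 + 32 * a : ℤ) : ℍ → ℂ) * (1 + 240 * Vp p e4) := by
    rw [hat_levelOne p E4_mem_MF, Vp_E4]
    have ha' : (p : ℂ) ^ 4 = 1 + 32 * (a : ℂ) := by exact_mod_cast ha
    funext z
    simp only [Pi.add_apply, Pi.mul_apply, Pi.smul_apply, smul_eq_mul, Pi.intCast_apply,
      Pi.ofNat_apply, Pi.one_apply]
    have h4 : (p : ℂ) ^ (4 : ℤ) = (p : ℂ) ^ 4 := by norm_cast
    rw [h4, ha']
    push_cast
    ring
  have hE6hat : hat p 6 (E₆ : ℍ → ℂ) =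
      ((1 + 16 * b : ℤ) : ℍ → ℂ) * (1 - 504 * (Vp p e4 - 2 * Vp p e')) := by
    rw [hat_levelOne p E6_mem_MF, Vp_E6]
    have hb' : (p : ℂ) ^ 6 = 1 + 16 * (b : ℂ) := by exact_mod_cast hb
    funext z
    simp only [Pi.sub_apply, Pi.mul_apply, Pi.smul_apply, smul_eq_mul, Pi.intCast_apply,
      Pi.ofNat_apply, Pi.one_apply]
    have h6 : (p : ℂ) ^ (6 : ℤ) = (p : ℂ) ^ 6 := by norm_cast
    rw [h6, hb']
    push_cast
    ring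
  obtain ⟨mu, K, W, h1, h2, h3⟩ :=
    exists_mu_K t 0 0 g (⟨e4, e4_mem_IntG⟩ : IntG) (⟨e', e'_mem_IntG⟩ : IntG)
  obtain ⟨mu', K', W', h1', h2', h3'⟩ :=
    exists_mu_K t a b g'' (⟨Vp p e4, Vp_mem_IntG e4_mem_IntG hp0⟩ : IntG)
      (⟨Vp p e', Vp_mem_IntG e'_mem_IntG hp0⟩ : IntG)
  have e1 := congrArg IntG.subtype h1
  have e2 := congrArg IntG.subtype h2
  have e3 := congrArg IntG.subtype h3
  have e1' := congrArg IntG.subtype h1'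
  have e2' := congrArg IntG.subtype h2'
  have e3' := congrArg IntG.subtype h3'
  simp only [map_mul, map_add, map_sub, map_pow, map_ofNat, map_intCast, map_one,
    Subring.coe_subtype, mul_zero, add_zero, Int.cast_one, one_mul] at e1 e2 e3 e1' e2' e3'
  rw [← hg, ← E4_eq] at e1 e2
  rw [← E6_eq] at e2
  rw [← hg] at e3
  rw [← hg'', ← hE4hat] at e1' e2'
  rw [← hE6hat] at e2'
  rw [← hg''] at e3'
  refine ⟨mu, K, mu', K', ?_⟩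
  refine
    { G_mem := ?_
      Ghat_mem := ?_
      μ_mem := mu.2
      K_mem := K.2
      μ'_mem := mu'.2
      K'_mem := K'.2
      hμ := e1
      hK := e2
      hW := ⟨W, W.2, e3⟩
      hμ' := e1'
      hK' := e2'
      hW' := ⟨W', W'.2, e3'⟩ }
  · rw [hg]
    exact IntG.add_mem (intCast_mem _ _) (IntG.mul_mem (ofNat_mem _ 8) g.2)
  · rw [hg'']
    exact IntG.add_mem (intCast_mem _ _) (IntG.mul_mem (ofNat_mem _ 8) g''.2)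

namespace IsMuData

variable {p} {G : ℍ → ℂ} {s : ℤ} {μ K μ' K' : ℍ → ℂ}

lemma hμn (h : IsMuData p G s μ K μ' K') :
    ((16 : ℕ) : ℍ → ℂ) * μ = G ^ 2 - (s : ℍ → ℂ) ^ 2 * E₄ := by
  rw [Nat.cast_ofNat]; exact h.hμ

lemma hKn (h : IsMuData p G s μ K μ' K') :
    ((8 : ℕ) : ℍ → ℂ) * K = G * E₄ - (s : ℍ → ℂ) * E₆ := by
  rw [Nat.cast_ofNat]; exact h.hK

lemma hμ'n (h : IsMuData p G s μ K μ' K') :
    ((16 : ℕ) : ℍ → ℂ) * μ' = hat p 2 G ^ 2 - (s : ℍ → ℂ) ^ 2 * hat p 4 E₄ := by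
  rw [Nat.cast_ofNat]; exact h.hμ'

lemma hK'n (h : IsMuData p G s μ K μ' K') :
    ((8 : ℕ) : ℍ → ℂ) * K' = hat p 2 G * hat p 4 E₄ - (s : ℍ → ℂ) * hat p 6 E₆ := by
  rw [Nat.cast_ofNat]; exact h.hK'

lemma μ_mem_MF (h : IsMuData p G s μ K μ' K') (hG : G ∈ MF (Gamma0 p) 2) :
    μ ∈ MF (Gamma0 p) 4 := by
  refine mem_MF_of_natCast_mul (n := 16) (by norm_num) h.hμn ?_
  refine Submodule.sub_mem _ (mem_MF_of_eq (by norm_num) (pow_mem_MF hG 2)) ?_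
  exact intCast_pow_mul_mem_MF s 2 (MF_top_le _ _ E4_mem_MF)

lemma K_mem_MF (h : IsMuData p G s μ K μ' K') (hG : G ∈ MF (Gamma0 p) 2) :
    K ∈ MF (Gamma0 p) 6 := by
  refine mem_MF_of_natCast_mul (n := 8) (by norm_num) h.hKn ?_
  refine Submodule.sub_mem _
    (mem_MF_of_eq (by norm_num) (mul_mem_MF hG (MF_top_le _ _ E4_mem_MF))) ?_
  have := intCast_pow_mul_mem_MF (Γ := Gamma0 p) s 1 (MF_top_le _ _ E6_mem_MF)
  rwa [pow_one] at this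

lemma hat_μ (h : IsMuData p G s μ K μ' K') : hat p 4 μ = μ' := by
  refine hat_eq_of_natCast_mul p (n := 16) (by norm_num) h.hμn ?_
  rw [h.hμ'n, hat_sub, hat_intCast_pow_mul]
  congr 1
  have := hat_pow p 2 2 G
  norm_num at this
  exact this.symm

lemma hat_K (h : IsMuData p G s μ K μ' K') : hat p 6 K = K' := by
  refine hat_eq_of_natCast_mul p (n := 8) (by norm_num) h.hKn ?_
  rw [h.hK'n, hat_sub, hat_intCast_mul]
  congr 1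
  have := hat_mul p 2 4 G (E₄ : ℍ → ℂ)
  norm_num at this
  exact this.symm

lemma hat_Gμ (h : IsMuData p G s μ K μ' K') : hat p 6 (G * μ) = hat p 2 G * μ' := by
  have := hat_mul p 2 4 G μ
  norm_num at this
  rw [this, h.hat_μ]

end IsMuData

/-! ## The forms `D_k` -/

lemma exists_D {A B : ℍ → ℂ} (hA : A ∈ IntG) (hB : B ∈ IntG)
    (h : ∃ W ∈ IntG, A - B = 2 * W) (k : ℕ) :
    ∃ D ∈ IntG, ((2 ^ (k + 1) : ℕ) : ℍ → ℂ) * D = A ^ 2 ^ k - B ^ 2 ^ k := by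
  obtain ⟨W, hW, hAB⟩ := h
  have h2 : (2 : IntG) ∣ (⟨A, hA⟩ : IntG) - ⟨B, hB⟩ := ⟨⟨W, hW⟩, Subtype.ext hAB⟩
  obtain ⟨D, hD⟩ := two_pow_dvd_pow_sub_pow h2 k
  refine ⟨D, D.2, ?_⟩
  have := congrArg IntG.subtype hD
  simp only [map_mul, map_sub, map_pow, map_ofNat, Subring.coe_subtype] at this
  rw [this]
  push_cast
  rfl

/-! ## Traces -/

lemma tr_eval_congr (hin : U4Inputs p) {ρ : ℍ} (hρ : (E₄ : ℍ → ℂ) ρ = 0) (w : ℤ)
    {F₁ F₂ : ℍ → ℂ} (h : (E₄ : ℍ → ℂ) ∣ F₁ - F₂) : tr p w F₁ ρ = tr p w F₂ ρ := by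
  obtain ⟨R, hR⟩ := h
  have h1 : F₁ = F₂ + E₄ * R := by rw [← hR]; abel
  have h2 : tr p w ((E₄ : ℍ → ℂ) * R) = E₄ * tr p (w - 4) R := by
    have := hin.tr_mul_levelOne (w - 4) E4_mem_MF R
    rwa [show (4 : ℤ) + (w - 4) = w by ring] at this
  rw [h1, tr_add, Pi.add_apply, h2, Pi.mul_apply, hρ, zero_mul, add_zero]

lemma trace_int (hin : U4Inputs p) {ρ : ℍ} (hρ : (E₄ : ℍ → ℂ) ρ = 0) (j : ℕ) (hj : 1 ≤ j)
    {F F' : ℍ → ℂ} (hF : F ∈ MF (Gamma0 p) (12 * j)) (hFI : F ∈ IntG)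
    (hhat : hat p (12 * j) F = F') (hF'I : F' ∈ IntG) :
    ∃ m : ℤ, ((p : ℂ) ^ (12 * j - 1)) * tr p (12 * j) F ρ = (m : ℂ) * (Δ : ℍ → ℂ) ρ ^ j := by
  have hp0 := p_ne_zero p
  have hp' := p_ne_zero' p
  set T : ℍ → ℂ := ((p : ℂ) ^ (12 * j - 1)) • tr p (12 * j) F with hT
  have hT_MF : T ∈ MF ⊤ (12 * (j : ℤ)) := Submodule.smul_mem _ _ (hin.tr_mem_MF hF)
  have hT_eq : T = ((p ^ (12 * j - 1) : ℕ) : ℍ → ℂ) * F + heckeU (12 * j) p F' := by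
    rw [hT, tr, hhat, smul_add, smul_smul]
    have hc : (p : ℂ) ^ (12 * j - 1) * (p : ℂ) ^ (1 - 12 * (j : ℤ)) = 1 := by
      rw [← zpow_natCast, ← zpow_add₀ hp']
      have : ((12 * j - 1 : ℕ) : ℤ) + (1 - 12 * (j : ℤ)) = 0 := by
        have : 1 ≤ 12 * j := by omega
        push_cast [Nat.cast_sub this]
        ring
      rw [this, zpow_zero]
    rw [hc, one_smul]
    congr 1
    funext z
    simp
  have hT_I : T ∈ IntG := by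
    rw [hT_eq]
    exact IntG.add_mem (IntG.mul_mem (natCast_mem _ _) hFI) (heckeU_mem_IntG hF'I _ hp0)
  obtain ⟨m, hm⟩ := hin.evRho_int ρ hρ j hT_MF (IntG.intAll hT_I)
  exact ⟨m, by rw [← hm, hT]; simp⟩

/-! ## The main step: `2 ^ (i + 2) ∣ p + 1` for all `i` -/

lemma two_pow_dvd (hin : U4Inputs p) (hp8 : p % 8 = 7) {G : ℍ → ℂ}
    (hG : G ∈ MF (Gamma0 p) 2) (s : ℤ) (hs : Odd s) {μ K μ' K' : ℍ → ℂ}
    (h : IsMuData p G s μ K μ' K') {ρ : ℍ} (hρ : (E₄ : ℍ → ℂ) ρ = 0) (i : ℕ) :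
    (2 : ℤ) ^ (i + 2) ∣ (p : ℤ) + 1 := by
  obtain ⟨j, hjdef⟩ : ∃ j : ℕ, j = 2 ^ i := ⟨_, rfl⟩
  have hj : 1 ≤ j := hjdef ▸ Nat.one_le_two_pow
  have hM : 2 ^ (i + 1) = 2 * j := by rw [pow_succ, hjdef]; ring
  have hμ_MF := h.μ_mem_MF hG
  have hK_MF := h.K_mem_MF hG
  have hA_MF : G * μ ∈ MF (Gamma0 p) 6 := mem_MF_of_eq (by norm_num) (mul_mem_MF hG hμ_MF)
  obtain ⟨D, hDI, hD⟩ := exists_D (IntG.mul_mem h.G_mem h.μ_mem) h.K_mem h.hW (i + 1)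
  obtain ⟨D', hD'I, hD'⟩ := exists_D (IntG.mul_mem h.Ghat_mem h.μ'_mem) h.K'_mem h.hW' (i + 1)
  rw [hM] at hD hD'
  -- weights
  have hw : ((2 * j : ℕ) : ℤ) * 6 = 12 * (j : ℤ) := by push_cast; ring
  have hAM : (G * μ) ^ (2 * j) ∈ MF (Gamma0 p) (12 * j) :=
    mem_MF_of_eq hw (pow_mem_MF hA_MF _)
  have hKM : K ^ (2 * j) ∈ MF (Gamma0 p) (12 * j) := mem_MF_of_eq hw (pow_mem_MF hK_MF _)
  have hn0 : 2 ^ (i + 1 + 1) ≠ 0 := by positivity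
  have hD_MF : D ∈ MF (Gamma0 p) (12 * j) :=
    mem_MF_of_natCast_mul hn0 hD (Submodule.sub_mem _ hAM hKM)
  have hD_hat : hat p (12 * j) D = D' := by
    refine hat_eq_of_natCast_mul p hn0 hD ?_
    rw [hD', hat_sub, ← hw, hat_pow, hat_pow, h.hat_Gμ, h.hat_K]
  obtain ⟨m, hm⟩ := trace_int p hin hρ j hj hD_MF hDI hD_hat hD'I
  have hw3 : ((3 * j : ℕ) : ℤ) * 4 = 12 * (j : ℤ) := by push_cast; ring
  have hμ3_MF : μ ^ (3 * j) ∈ MF (Gamma0 p) (12 * j) :=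
    mem_MF_of_eq hw3 (pow_mem_MF hμ_MF _)
  have hμ3_hat : hat p (12 * j) (μ ^ (3 * j)) = μ' ^ (3 * j) := by
    rw [← hw3, hat_pow, h.hat_μ]
  obtain ⟨n, hn⟩ := trace_int p hin hρ j hj hμ3_MF (IntG.pow_mem h.μ_mem _) hμ3_hat
    (IntG.pow_mem h.μ'_mem _)
  -- evaluation of the traces at `ρ`
  have ha : ((2 ^ (i + 1 + 1) : ℕ) : ℂ) * tr p (12 * j) D ρ =
      tr p (12 * j) ((G * μ) ^ (2 * j)) ρ - tr p (12 * j) (K ^ (2 * j)) ρ := by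
    have := congrArg (fun F => tr p (12 * (j : ℤ)) F ρ) hD
    simp only [tr_natCast_mul, tr_sub, Pi.mul_apply, Pi.sub_apply, Pi.natCast_apply] at this
    exact this
  have hb : tr p (12 * j) ((G * μ) ^ (2 * j)) ρ =
      (16 : ℂ) ^ j * tr p (12 * j) (μ ^ (3 * j)) ρ := by
    have hdvd := dvd_A_sub (E₄ : ℍ → ℂ) G μ ((s : ℍ → ℂ) ^ 2) h.hμ j
    rw [tr_eval_congr p hin hρ _ hdvd]
    have e16 : (16 : ℍ → ℂ) ^ j * μ ^ (3 * j) = ((16 ^ j : ℕ) : ℍ → ℂ) * μ ^ (3 * j) := by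
      push_cast
      rfl
    rw [e16, tr_natCast_mul, Pi.mul_apply, Pi.natCast_apply]
    push_cast
    rfl
  have hc : (8 : ℂ) ^ (2 * j) * tr p (12 * j) (K ^ (2 * j)) ρ =
      (s : ℂ) ^ (2 * j) * (((p : ℂ) + 1) * (E₆ ρ) ^ (2 * j)) := by
    have hdvd := dvd_K_sub (E₄ : ℍ → ℂ) G K (s : ℍ → ℂ) (E₆ : ℍ → ℂ) h.hK j
    have h1 := tr_eval_congr p hin hρ (12 * (j : ℤ)) hdvd
    have e8 : (8 : ℍ → ℂ) ^ (2 * j) * K ^ (2 * j) =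
        ((8 ^ (2 * j) : ℕ) : ℍ → ℂ) * K ^ (2 * j) := by
      push_cast
      rfl
    rw [e8, tr_natCast_mul, tr_intCast_pow_mul,
      hin.tr_levelOne (mem_MF_of_eq hw (pow_mem_MF E6_mem_MF (2 * j)))] at h1
    simpa using h1
  have hd : (E₆ ρ) ^ 2 = -1728 * (Δ : ℍ → ℂ) ρ := by
    have := ModularForm.discriminant_eq_E₄_cube_sub_E₆_sq ρ
    rw [hρ] at this
    rw [this]
    ring
  have hx : (Δ : ℍ → ℂ) ρ ^ j ≠ 0 := pow_ne_zero _ (ModularForm.discriminant_ne_zero ρ)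
  have hE6 : (E₆ ρ) ^ (2 * j) = (-1728) ^ j * (Δ : ℍ → ℂ) ρ ^ j := by
    rw [pow_mul, hd, mul_pow]
  rw [hE6] at hc
  have h64 : (8 : ℂ) ^ (2 * j) = 64 ^ j := by
    rw [pow_mul]
    norm_num
  rw [h64] at hc
  have hfin : ((64 : ℂ) ^ j * 2 ^ (i + 2) * m -
      (64 ^ j * 16 ^ j * n -
        (p : ℂ) ^ (12 * j - 1) * (s : ℂ) ^ (2 * j) * ((p : ℂ) + 1) * (-1728) ^ j)) *
      (Δ : ℍ → ℂ) ρ ^ j = 0 := by
    push_cast at ha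
    linear_combination (-(64 : ℂ) ^ j * 2 ^ (i + 2)) * hm + (64 ^ j * 16 ^ j) * hn +
      (64 ^ j * (p : ℂ) ^ (12 * j - 1)) * ha + (64 ^ j * (p : ℂ) ^ (12 * j - 1)) * hb -
      ((p : ℂ) ^ (12 * j - 1)) * hc
  have hfin' := (mul_eq_zero.mp hfin).resolve_right hx
  have hint : (64 : ℤ) ^ 2 ^ i * 2 ^ (i + 2) * m =
      64 ^ 2 ^ i * 16 ^ 2 ^ i * n -
        (p : ℤ) ^ (12 * 2 ^ i - 1) * s ^ (2 * 2 ^ i) * ((p : ℤ) + 1) * (-1728) ^ 2 ^ i := by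
    rw [← hjdef]
    have := sub_eq_zero.mp hfin'
    exact_mod_cast this
  have hP : Odd (p : ℤ) := by
    have : Odd p := Nat.odd_iff.mpr (by omega)
    exact_mod_cast this
  exact two_pow_dvd_of_identity i m n s p hs hP hint

/-- WP U4, from the inputs of WP FR and WP L1. -/
theorem U4_of_inputs (hin : U4Inputs p) (hp8 : p % 8 = 7) {G : ℍ → ℂ}
    (hG : G ∈ MF (Gamma0 p) 2) (s : ℤ) (hs : Odd s) (h0 : qCoeff G 0 = (s : ℂ))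
    (hcong : ∀ k : ℕ, 1 ≤ k → ∃ m : ℤ, qCoeff G k = 8 * (m : ℂ)) : False := by
  obtain ⟨ρ, hρ⟩ := hin.exists_rho
  obtain ⟨μ, K, μ', K', h⟩ := exists_muData p hin hp8 hG s hs h0 hcong
  have hdvd := two_pow_dvd p hin hp8 hG s hs h hρ p
  have h1 : (2 : ℤ) ^ (p + 2) ≤ (p : ℤ) + 1 := Int.le_of_dvd (by positivity) hdvd
  have h2 : p + 2 < 2 ^ (p + 2) := Nat.lt_two_pow_self
  have h3 : ((p + 2 : ℕ) : ℤ) < 2 ^ (p + 2) := by exact_mod_cast h2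
  push_cast at h3
  omega

end main

end Fermat.Agent.S16.H109
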